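import Mathlib
import Fermat.Agent.PT.Loc.H33NIIface

/-!
# PT-GLOB, local inputs (helper34): completion of an ultrametric normed field with an isometric
automorphism

`E` an ultrametric normed field (not necessarily complete), `Ê = UniformSpace.Completion E`.
* `h34g_ultra` : `Ê` is ultrametric;
* `h34g_hat σ hσ : Ê ≃+* Ê` : the extension of an isometric automorphism `σ` of `E`;
* `h34g_hat_coe`, `h34g_hat_norm`, `h34g_hat_pow_coe`;
* `h34g_series` : completeness of `Ê` in series form;
* `h34g_exists_near` : density of `E` in `Ê`.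
-/

set_option autoImplicit false

open UniformSpace Finset

open scoped NNReal

namespace Fermat.Agent.PT.Glob

section Compl

variable {E : Type} [NormedField E]

/-- density of `E` in its completion. -/
theorem h34g_exists_near (x : Completion E) {ε : ℝ} (hε : 0 < ε) :
    ∃ y : E, ‖x - (y : Completion E)‖ < ε := by
  have h1 : x ∈ closure (Set.range ((↑) : E → Completion E)) := by
    rw [(Completion.denseRange_coe (α := E)).closure_range]
    exact Set.mem_univ x
  rw [Metric.mem_closure_iff] at h1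
  obtain ⟨_, ⟨y, rfl⟩, hy⟩ := h1 ε hε
  exact ⟨y, by rwa [dist_eq_norm] at hy⟩

/-- The completion of an ultrametric normed field is ultrametric. -/
theorem h34g_ultra [IsUltrametricDist E] : IsUltrametricDist (Completion E) := by
  refine IsUltrametricDist.isUltrametricDist_of_forall_norm_add_le_max_norm fun x y => ?_
  induction x, y using Completion.induction_on₂ with
  | hp =>
    exact isClosed_le (continuous_norm.comp continuous_add)
      ((continuous_norm.comp continuous_fst).max (continuous_norm.comp continuous_snd))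
  | ih a b =>
    rw [← Completion.coe_add, Completion.norm_coe, Completion.norm_coe, Completion.norm_coe]
    exact IsUltrametricDist.norm_add_le_max a b

theorem h34g_isometry (σ : E ≃+* E) (hσ : ∀ x, ‖σ x‖ = ‖x‖) : Isometry σ :=
  AddMonoidHomClass.isometry_of_norm σ hσ

theorem h34g_symm_norm (σ : E ≃+* E) (hσ : ∀ x, ‖σ x‖ = ‖x‖) (x : E) : ‖σ.symm x‖ = ‖x‖ := by
  conv_rhs => rw [← σ.apply_symm_apply x, hσ]

/-- The extension of an isometric automorphism to the completion. -/
noncomputable def h34g_hat (σ : E ≃+* E) (hσ : ∀ x, ‖σ x‖ = ‖x‖) :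
    Completion E ≃+* Completion E :=
  Completion.mapRingEquiv σ (h34g_isometry σ hσ).continuous
    (h34g_isometry σ.symm (h34g_symm_norm σ hσ)).continuous

theorem h34g_hat_apply (σ : E ≃+* E) (hσ : ∀ x, ‖σ x‖ = ‖x‖) (x : Completion E) :
    h34g_hat σ hσ x = Completion.map σ x := rfl

theorem h34g_hat_coe (σ : E ≃+* E) (hσ : ∀ x, ‖σ x‖ = ‖x‖) (x : E) :
    h34g_hat σ hσ (x : Completion E) = ((σ x : E) : Completion E) := by
  rw [h34g_hat_apply, Completion.map_coe (h34g_isometry σ hσ).uniformContinuous]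

theorem h34g_hat_continuous (σ : E ≃+* E) (hσ : ∀ x, ‖σ x‖ = ‖x‖) :
    Continuous (h34g_hat σ hσ) :=
  Completion.continuous_map

theorem h34g_hat_norm (σ : E ≃+* E) (hσ : ∀ x, ‖σ x‖ = ‖x‖) (x : Completion E) :
    ‖h34g_hat σ hσ x‖ = ‖x‖ := by
  have h1 : Isometry (Completion.map σ) := (h34g_isometry σ hσ).completion_map
  have h2 := h1.dist_eq x 0
  rw [dist_eq_norm, dist_eq_norm, sub_zero] at h2
  have h3 : Completion.map σ (0 : Completion E) = 0 := by
    have := h34g_hat_coe σ hσ 0
    rw [h34g_hat_apply, map_zero] at this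
    exact this
  rw [h3, sub_zero] at h2
  rw [h34g_hat_apply]
  exact h2

theorem h34g_pow_norm (σ : E ≃+* E) (hσ : ∀ x, ‖σ x‖ = ‖x‖) (i : ℕ) (x : E) :
    ‖(σ ^ i) x‖ = ‖x‖ := by
  induction i with
  | zero => rw [pow_zero]; rfl
  | succ i ih =>
    rw [pow_succ']
    change ‖σ ((σ ^ i) x)‖ = ‖x‖
    rw [hσ, ih]

theorem h34g_hat_pow_coe (σ : E ≃+* E) (hσ : ∀ x, ‖σ x‖ = ‖x‖) (i : ℕ) (x : E) :
    ((h34g_hat σ hσ) ^ i) (x : Completion E) = (((σ ^ i) x : E) : Completion E) := by
  induction i with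
  | zero => rw [pow_zero, pow_zero]; rfl
  | succ i ih =>
    rw [pow_succ', pow_succ']
    change h34g_hat σ hσ (((h34g_hat σ hσ) ^ i) (x : Completion E)) = ((σ ((σ ^ i) x) : E) : _)
    rw [ih, h34g_hat_coe]

/-- Two continuous maps agreeing on `E` agree on the completion. -/
theorem h34g_ext_of_coe {f g : Completion E → Completion E} (hf : Continuous f)
    (hg : Continuous g) (h : ∀ x : E, f x = g x) : f = g :=
  Completion.ext hf hg h

theorem h34g_hat_pow_continuous (σ : E ≃+* E) (hσ : ∀ x, ‖σ x‖ = ‖x‖) (i : ℕ) :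
    Continuous ((h34g_hat σ hσ) ^ i : Completion E ≃+* Completion E) := by
  induction i with
  | zero =>
    rw [pow_zero]
    exact continuous_id
  | succ i ih =>
    rw [pow_succ']
    exact (h34g_hat_continuous σ hσ).comp ih

theorem h34g_hat_pow_eq_one (σ : E ≃+* E) (hσ : ∀ x, ‖σ x‖ = ‖x‖) {ℓ : ℕ} (h : σ ^ ℓ = 1) :
    (h34g_hat σ hσ) ^ ℓ = 1 := by
  apply RingEquiv.ext
  intro x
  have := congrFun (h34g_ext_of_coe (h34g_hat_pow_continuous σ hσ ℓ) continuous_id
    (fun y => by rw [h34g_hat_pow_coe, h]; rfl)) x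
  exact this

theorem h34g_hat_pow_ne_one (σ : E ≃+* E) (hσ : ∀ x, ‖σ x‖ = ‖x‖) {i : ℕ} (h : σ ^ i ≠ 1) :
    (h34g_hat σ hσ) ^ i ≠ 1 := by
  intro h1
  apply h
  apply RingEquiv.ext
  intro x
  have h2 := h34g_hat_pow_coe σ hσ i x
  rw [h1] at h2
  exact (Completion.coe_injective E h2.symm)

end Compl

end Fermat.Agent.PT.Glob
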