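import Mathlib
import Fermat.Agent.PT.Glob.LNI.H34Compl

/-!
# PT-GLOB, local inputs (helper34): the `H33LF` structure of a completion

`E` an ultrametric normed field with discrete value group `‖ϖ‖^ℤ`, a finite system of
representatives of the residue field and an isometric automorphism `σ` of exact order `ℓ`:
`h34g_lf` is the `H33LF` structure on `Ê = UniformSpace.Completion E` (valuation = norm,
automorphism = `h34g_hat σ`).
-/

set_option autoImplicit false

open UniformSpace Finset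

open scoped NNReal

namespace Fermat.Agent.PT.Glob

open Fermat.Agent.PT.Loc

section LocData

variable {E : Type} [NormedField E] [IsUltrametricDist E]

/-- The norm of the completion as a valuation. -/
noncomputable def h34g_val (E : Type) [NormedField E] [IsUltrametricDist E] :
    Valuation (Completion E) ℝ≥0 :=
  letI := h34g_ultra (E := E)
  NormedField.valuation

theorem h34g_val_apply (x : Completion E) : ((h34g_val E x : ℝ≥0) : ℝ) = ‖x‖ := by
  have := h34g_ultra (E := E)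
  unfold h34g_val
  rw [NormedField.valuation_apply, coe_nnnorm]

theorem h34g_val_le_iff (x : Completion E) (c : ℝ≥0) : h34g_val E x ≤ c ↔ ‖x‖ ≤ (c : ℝ) := by
  rw [← NNReal.coe_le_coe, h34g_val_apply]

theorem h34g_val_lt_iff (x : Completion E) (c : ℝ≥0) : h34g_val E x < c ↔ ‖x‖ < (c : ℝ) := by
  rw [← NNReal.coe_lt_coe, h34g_val_apply]

theorem h34g_val_eq_iff (x : Completion E) (c : ℝ≥0) : h34g_val E x = c ↔ ‖x‖ = (c : ℝ) := by
  rw [← NNReal.coe_inj, h34g_val_apply]

/-- Completeness in series form. -/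
theorem h34g_series (π : Completion E) (hπ : ‖π‖ < 1) (s : ℕ → Completion E)
    (hs : ∀ n, ‖s n‖ ≤ ‖π‖ ^ n) :
    ∃ z : Completion E, ∀ n, ‖z - ∑ i ∈ range n, s i‖ ≤ ‖π‖ ^ n := by
  have := h34g_ultra (E := E)
  have hsum : Summable s :=
    Summable.of_norm_bounded (summable_geometric_of_lt_one (norm_nonneg π) hπ) hs
  refine ⟨∑' i, s i, fun n => ?_⟩
  have h1 : ∑' i, s i - ∑ i ∈ range n, s i = ∑' i, s (i + n) := by
    rw [← hsum.sum_add_tsum_nat_add n]
    abel
  rw [h1]
  refine (IsUltrametricDist.norm_tsum_le _).trans ?_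
  apply ciSup_le
  intro i
  exact (hs (i + n)).trans (pow_le_pow_of_le_one (norm_nonneg π) hπ.le (Nat.le_add_left n i))

/-- An element of the completion has the norm of a nearby element of `E`. -/
theorem h34g_exists_norm_eq (x : Completion E) (hx : x ≠ 0) {ε : ℝ} (hε : 0 < ε) :
    ∃ y : E, y ≠ 0 ∧ ‖x - (y : Completion E)‖ < ε ∧ ‖y‖ = ‖x‖ := by
  have := h34g_ultra (E := E)
  have hx0 : 0 < ‖x‖ := norm_pos_iff.mpr hx
  obtain ⟨y, hy⟩ := h34g_exists_near x (lt_min hε hx0)
  have h1 : ‖x - (y : Completion E)‖ < ‖x‖ := lt_of_lt_of_le hy (min_le_right _ _)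
  have h2 : ‖x‖ = ‖(y : Completion E)‖ := by
    have h3 : ‖x + -(y : Completion E)‖ < max ‖x‖ ‖-(y : Completion E)‖ := by
      rw [← sub_eq_add_neg]
      exact lt_of_lt_of_le h1 (le_max_left _ _)
    have := IsUltrametricDist.norm_eq_of_add_norm_lt_max h3
    rwa [norm_neg] at this
  rw [Completion.norm_coe] at h2
  refine ⟨y, ?_, lt_of_lt_of_le hy (min_le_left _ _), h2.symm⟩
  intro h0
  rw [h0, norm_zero] at h2
  exact hx0.ne' h2

/-- The `H33LF` structure on the completion. -/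
noncomputable def h34g_lf (σ : E ≃+* E) (hσ : ∀ x, ‖σ x‖ = ‖x‖) (ℓ : ℕ) (hℓ : 0 < ℓ)
    (hσℓ : σ ^ ℓ = 1) (hord : ∀ i, 0 < i → i < ℓ → σ ^ i ≠ 1) (ϖ : E) (hϖ0 : ϖ ≠ 0)
    (hϖ1 : ‖ϖ‖ < 1) (hdisc : ∀ x : E, x ≠ 0 → ∃ n : ℤ, ‖x‖ = ‖ϖ‖ ^ n)
    (hres : ∃ R : Finset E, ∀ x : E, ‖x‖ ≤ 1 → ∃ r ∈ R, ‖x - r‖ < 1) :
    H33LF (Completion E) where
  v := h34g_val E
  σ := h34g_hat σ hσ
  ℓ := ℓ
  hℓ := hℓ
  hσℓ := h34g_hat_pow_eq_one σ hσ hσℓ
  hord := fun i hi hiℓ => h34g_hat_pow_ne_one σ hσ (hord i hi hiℓ)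
  hvσ := fun x => by
    rw [← NNReal.coe_inj, h34g_val_apply, h34g_val_apply, h34g_hat_norm]
  ϖ := (ϖ : Completion E)
  hϖ0 := by
    intro h
    apply hϖ0
    have : ((ϖ : E) : Completion E) = ((0 : E) : Completion E) := by rw [h, Completion.coe_zero]
    exact Completion.coe_injective E this
  hϖ1 := by
    rw [h34g_val_lt_iff, Completion.norm_coe, NNReal.coe_one]
    exact hϖ1
  hdisc := fun x hx => by
    obtain ⟨y, hy0, -, hyx⟩ := h34g_exists_norm_eq x hx one_pos
    obtain ⟨n, hn⟩ := hdisc y hy0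
    refine ⟨n, ?_⟩
    rw [← NNReal.coe_inj, NNReal.coe_zpow, h34g_val_apply, h34g_val_apply, Completion.norm_coe,
      ← hyx, hn]
  hcomp := fun π hπ s hs => by
    have hπ' : ‖π‖ < 1 := by
      rw [h34g_val_lt_iff, NNReal.coe_one] at hπ
      exact hπ
    have hs' : ∀ n, ‖s n‖ ≤ ‖π‖ ^ n := by
      intro n
      have := hs n
      rw [h34g_val_le_iff, NNReal.coe_pow, h34g_val_apply] at this
      exact this
    obtain ⟨z, hz⟩ := h34g_series π hπ' s hs'
    refine ⟨z, fun n => ?_⟩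
    rw [h34g_val_le_iff, NNReal.coe_pow, h34g_val_apply]
    exact hz n
  hres := by
    classical
    have := h34g_ultra (E := E)
    obtain ⟨R, hR⟩ := hres
    refine ⟨R.image (fun r : E => (r : Completion E)), fun x hx => ?_⟩
    rw [h34g_val_le_iff, NNReal.coe_one] at hx
    obtain ⟨y, hy⟩ := h34g_exists_near x one_pos
    have hy1 : ‖y‖ ≤ 1 := by
      rw [← Completion.norm_coe]
      have h1 : (y : Completion E) = x + -(x - (y : Completion E)) := by ring
      rw [h1]
      refine (IsUltrametricDist.norm_add_le_max _ _).trans (max_le hx ?_)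
      rw [norm_neg]
      exact hy.le
    obtain ⟨r, hr, hyr⟩ := hR y hy1
    refine ⟨(r : Completion E), Finset.mem_image.mpr ⟨r, hr, rfl⟩, ?_⟩
    rw [h34g_val_lt_iff, NNReal.coe_one]
    have h2 : x - (r : Completion E) = (x - (y : Completion E)) + ((y - r : E) : Completion E) := by
      rw [Completion.coe_sub]
      ring
    rw [h2]
    refine lt_of_le_of_lt (IsUltrametricDist.norm_add_le_max _ _) (max_lt hy ?_)
    rw [Completion.norm_coe]
    exact hyr

end LocData

end Fermat.Agent.PT.Glob
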