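import Mathlib
import Fermat.Agent.PT.Glob.LNI.H34LocData
import Fermat.Agent.PT.Loc.H34NICohAdd
import Fermat.Agent.PT.Loc.H33NICoh
import Fermat.Agent.PT.Loc.H33NINB
import Fermat.Agent.PT.Loc.H33NIHQ
import Fermat.Agent.PT.Loc.H57NIFin
import Fermat.Agent.PT.Loc.H24NIH90

/-!
# PT-GLOB, local inputs (helper34): the local norm index theorem in approximation form

`E` an ultrametric normed field (a global field with a `w`-adic absolute value), `σ` an isometric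
automorphism of prime order `ℓ`, discrete value group, finite residue system, `ℓ ≠ 0` in `E`.
`h34g_IsLN σ ℓ b` : `b` is approximable by norms `N y = ∏_{i<ℓ} σ^i y`, `y ∈ Eˣ`.

* `h34g_isLN_iff` : for `σ b = b`: `b` is approximable by norms iff `b` is a norm from the
  completion;
* `h34g_exists_not_isLN` : some `σ`-fixed `b ≠ 0` is not approximable by norms;
* `h34g_isLN_mul_pow` : if `b` is not approximable then every `σ`-fixed `b' ≠ 0` is
  `b' * b ^ k ∈ LN` for some `k < ℓ`.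
-/

set_option autoImplicit false

open UniformSpace Finset

open scoped NNReal

namespace Fermat.Agent.PT.Glob

open Fermat.Agent.PT.Loc

section Gen

variable {E : Type} [NormedField E]

/-- `b` is approximable by norms. -/
def h34g_IsLN (σ : E ≃+* E) (ℓ : ℕ) (b : E) : Prop :=
  ∀ ε : ℝ, 0 < ε → ∃ y : E, y ≠ 0 ∧ ‖b / h33n_N σ ℓ y - 1‖ < ε

theorem h34g_N_mul {L : Type} [Field L] (σ : L ≃+* L) (ℓ : ℕ) (x y : L) :
    h33n_N σ ℓ (x * y) = h33n_N σ ℓ x * h33n_N σ ℓ y := by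
  unfold h33n_N
  rw [← Finset.prod_mul_distrib]
  exact Finset.prod_congr rfl fun i _ => map_mul _ _ _

theorem h34g_N_div {L : Type} [Field L] (σ : L ≃+* L) (ℓ : ℕ) (x y : L) :
    h33n_N σ ℓ (x / y) = h33n_N σ ℓ x / h33n_N σ ℓ y := by
  unfold h33n_N
  rw [← Finset.prod_div_distrib]
  exact Finset.prod_congr rfl fun i _ => map_div₀ _ _ _

theorem h34g_N_ne_zero {L : Type} [Field L] (σ : L ≃+* L) (ℓ : ℕ) {x : L} (hx : x ≠ 0) :
    h33n_N σ ℓ x ≠ 0 := by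
  unfold h33n_N
  rw [Finset.prod_ne_zero_iff]
  intro j _
  exact (map_ne_zero_iff _ (σ ^ j).injective).mpr hx

theorem h34g_N_one {L : Type} [Field L] (σ : L ≃+* L) (ℓ : ℕ) : h33n_N σ ℓ 1 = 1 := by
  unfold h33n_N
  simp

theorem h34g_N_pow {L : Type} [Field L] (σ : L ≃+* L) (ℓ : ℕ) (x : L) (k : ℕ) :
    h33n_N σ ℓ (x ^ k) = h33n_N σ ℓ x ^ k := by
  unfold h33n_N
  rw [← Finset.prod_pow]
  exact Finset.prod_congr rfl fun i _ => map_pow _ _ _

theorem h34g_N_fixed {L : Type} [Field L] (σ : L ≃+* L) (ℓ : ℕ) (hσℓ : σ ^ ℓ = 1) (y : L) :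
    σ (h33n_N σ ℓ y) = h33n_N σ ℓ y := by
  unfold h33n_N
  rw [map_prod]
  have h1 : ∏ i ∈ range ℓ, σ ((σ ^ i) y) = ∏ i ∈ range ℓ, (σ ^ (i + 1)) y :=
    Finset.prod_congr rfl fun i _ => (h34c_pow_succ_apply σ i y).symm
  have h2 := Finset.prod_range_succ' (fun i => (σ ^ i) y) ℓ
  have h3 := Finset.prod_range_succ (fun i => (σ ^ i) y) ℓ
  have h4 : (σ ^ ℓ) y = (σ ^ 0) y := by
    rw [hσℓ, pow_zero]
  rw [h1]
  have h5 : (∏ i ∈ range ℓ, (σ ^ (i + 1)) y) * (σ ^ 0) y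
      = (∏ i ∈ range ℓ, (σ ^ i) y) * (σ ^ ℓ) y := by rw [← h2, ← h3]
  rw [h4] at h5
  by_cases hy : y = 0
  · subst hy
    by_cases hℓ : ℓ = 0
    · subst hℓ
      simp
    · have h0 : ∀ n : ℕ, n ≠ 0 → ∏ i ∈ range n, (σ ^ i) (0 : L) = 0 := by
        intro n hn
        apply Finset.prod_eq_zero (i := 0) (Finset.mem_range.mpr (Nat.pos_of_ne_zero hn))
        exact map_zero _
      rw [h0 ℓ hℓ]
      apply Finset.prod_eq_zero (i := 0) (Finset.mem_range.mpr (Nat.pos_of_ne_zero hℓ))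
      exact map_zero _
  · have h6 : (σ ^ 0) y ≠ 0 := by
      rw [h34c_pow_zero_apply]
      exact hy
    exact mul_right_cancel₀ h6 h5

theorem h34g_N_of_fixed {L : Type} [Field L] (σ : L ≃+* L) (ℓ : ℕ) {b : L} (hb : σ b = b) :
    h33n_N σ ℓ b = b ^ ℓ := by
  unfold h33n_N
  rw [Finset.prod_congr rfl fun i _ => h34c_pow_fixed σ hb i, Finset.prod_const,
    Finset.card_range]

/-- The norm of the completion restricted to `E`. -/
theorem h34g_N_coe (σ : E ≃+* E) (hσ : ∀ x, ‖σ x‖ = ‖x‖) (ℓ : ℕ) (y : E) :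
    h33n_N (h34g_hat σ hσ) ℓ (y : Completion E) = ((h33n_N σ ℓ y : E) : Completion E) := by
  unfold h33n_N
  have h1 : ((∏ i ∈ range ℓ, (σ ^ i) y : E) : Completion E)
      = ∏ i ∈ range ℓ, (((σ ^ i) y : E) : Completion E) :=
    map_prod (Completion.coeRingHom : E →+* Completion E) _ _
  rw [h1]
  exact Finset.prod_congr rfl fun i _ => h34g_hat_pow_coe σ hσ i y

theorem h34g_T_coe (σ : E ≃+* E) (hσ : ∀ x, ‖σ x‖ = ‖x‖) (ℓ : ℕ) (y : E) :
    h33n_T (h34g_hat σ hσ) ℓ (y : Completion E) = ((h33n_T σ ℓ y : E) : Completion E) := by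
  unfold h33n_T
  have h1 : ((∑ i ∈ range ℓ, (σ ^ i) y : E) : Completion E)
      = ∑ i ∈ range ℓ, (((σ ^ i) y : E) : Completion E) :=
    map_sum (Completion.coeRingHom : E →+* Completion E) _ _
  rw [h1]
  exact Finset.sum_congr rfl fun i _ => h34g_hat_pow_coe σ hσ i y

theorem h34g_hat_pow_norm (σ : E ≃+* E) (hσ : ∀ x, ‖σ x‖ = ‖x‖) (i : ℕ) (x : Completion E) :
    ‖((h34g_hat σ hσ) ^ i) x‖ = ‖x‖ := by
  induction i with
  | zero => rw [pow_zero]; rfl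
  | succ i ih =>
    rw [pow_succ']
    change ‖h34g_hat σ hσ (((h34g_hat σ hσ) ^ i) x)‖ = ‖x‖
    rw [h34g_hat_norm, ih]

variable [IsUltrametricDist E]

/-- `‖N u - 1‖ ≤ δ` if `‖u - 1‖ ≤ δ ≤ 1`. -/
theorem h34g_norm_N_sub_one (σ : E ≃+* E) (hσ : ∀ x, ‖σ x‖ = ‖x‖) (ℓ : ℕ) {u : Completion E}
    {δ : ℝ} (hδ : δ ≤ 1) (hu : ‖u - 1‖ ≤ δ) : ‖h33n_N (h34g_hat σ hσ) ℓ u - 1‖ ≤ δ := by
  have := h34g_ultra (E := E)
  have hδ0 : 0 ≤ δ := (norm_nonneg _).trans hu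
  unfold h33n_N
  induction ℓ with
  | zero => simpa using hδ0
  | succ n ih =>
    rw [Finset.prod_range_succ]
    set P := ∏ i ∈ range n, ((h34g_hat σ hσ) ^ i) u with hP
    set y := ((h34g_hat σ hσ) ^ n) u with hy
    have hy1 : ‖y - 1‖ ≤ δ := by
      have h1 : y - 1 = ((h34g_hat σ hσ) ^ n) (u - 1) := by
        rw [hy, map_sub, map_one]
      rw [h1, h34g_hat_pow_norm]
      exact hu
    have hy2 : ‖y‖ ≤ 1 := by
      have h1 : y = (y - 1) + 1 := by ring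
      rw [h1]
      refine (IsUltrametricDist.norm_add_le_max _ _).trans (max_le (hy1.trans hδ) ?_)
      rw [norm_one]
    have h2 : P * y - 1 = (P - 1) * y + (y - 1) := by ring
    rw [h2]
    refine (IsUltrametricDist.norm_add_le_max _ _).trans (max_le ?_ hy1)
    rw [norm_mul]
    calc ‖P - 1‖ * ‖y‖ ≤ δ * 1 := mul_le_mul ih hy2 (norm_nonneg _) hδ0
      _ = δ := mul_one δ

/-- The local data: an isometric automorphism of prime order of an ultrametric normed field with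
discrete value group and finite residue system. -/
structure H34Loc (E : Type) [NormedField E] (σ : E ≃+* E) (ℓ : ℕ) : Prop where
  hσ : ∀ x, ‖σ x‖ = ‖x‖
  hℓ : ℓ.Prime
  hσℓ : σ ^ ℓ = 1
  hord : ∀ i, 0 < i → i < ℓ → σ ^ i ≠ 1
  hℓ0 : (ℓ : E) ≠ 0
  hunif : ∃ ϖ : E, ϖ ≠ 0 ∧ ‖ϖ‖ < 1 ∧ ∀ x : E, x ≠ 0 → ∃ n : ℤ, ‖x‖ = ‖ϖ‖ ^ n
  hres : ∃ R : Finset E, ∀ x : E, ‖x‖ ≤ 1 → ∃ r ∈ R, ‖x - r‖ < 1

variable {σ : E ≃+* E} {ℓ : ℕ}

/-- In the completion: `σ`-fixed elements close to `1` are norms. -/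
theorem h34g_ball_norm (h : H34Loc E σ ℓ) :
    ∃ c : ℝ, 0 < c ∧ ∀ u : Completion E, h34g_hat σ h.hσ u = u → ‖u - 1‖ ≤ c →
      ∃ y : Completion E, y ≠ 0 ∧ h33n_N (h34g_hat σ h.hσ) ℓ y = u := by
  obtain ⟨ϖ, hϖ0, hϖ1, hdisc⟩ := h.hunif
  obtain ⟨W, hWU, ⟨c, hc, hball⟩, -, hH0, -⟩ := h33n_cohTriv_of h33nb_normalBasis (Completion E)
    (h34g_lf σ h.hσ ℓ h.hℓ.pos h.hσℓ h.hord ϖ hϖ0 hϖ1 hdisc h.hres)
  have hc0 : 0 < (c : ℝ) := by
    have : 0 < c := pos_iff_ne_zero.mpr hc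
    exact_mod_cast this
  refine ⟨min (c : ℝ) (1 / 2), lt_min hc0 (by norm_num), fun u hfix hu => ?_⟩
  have := h34g_ultra (E := E)
  have hu0 : u ≠ 0 := by
    intro h0
    rw [h0, zero_sub, norm_neg, norm_one] at hu
    have := hu.trans (min_le_right _ _)
    norm_num at this
  have hmem : Units.mk0 u hu0 ∈ W := by
    apply hball
    change h34g_val E (u - 1) ≤ c
    rw [h34g_val_le_iff]
    exact hu.trans (min_le_left _ _)
  obtain ⟨y, -, hy⟩ := hH0 (Units.mk0 u hu0) hmem hfix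
  exact ⟨(y : Completion E), y.ne_zero, hy⟩

/-- In the completion: the norm index is `ℓ`. -/
theorem h34g_normIndex_hat (h : H34Loc E σ ℓ) :
    (∃ b : Completion E, h34g_hat σ h.hσ b = b ∧ b ≠ 0 ∧
      ¬ ∃ β : Completion E, β ≠ 0 ∧ h33n_N (h34g_hat σ h.hσ) ℓ β = b) ∧
    (∀ b : Completion E, h34g_hat σ h.hσ b = b → b ≠ 0 →
      (¬ ∃ β : Completion E, β ≠ 0 ∧ h33n_N (h34g_hat σ h.hσ) ℓ β = b) →
      ∀ b' : Completion E, h34g_hat σ h.hσ b' = b' → b' ≠ 0 →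
        ∃ k, k < ℓ ∧ ∃ β : Completion E, β ≠ 0 ∧
          h33n_N (h34g_hat σ h.hσ) ℓ β = b' * b ^ k) := by
  obtain ⟨ϖ, hϖ0, hϖ1, hdisc⟩ := h.hunif
  exact h33q_normIndex_of (h33n_cohTriv_of h33nb_normalBasis) h57_finIdx h24h9_hilbert90
    (Completion E) (h34g_lf σ h.hσ ℓ h.hℓ.pos h.hσℓ h.hord ϖ hϖ0 hϖ1 hdisc h.hres) h.hℓ

omit [IsUltrametricDist E] in
theorem h34g_isLN_ne_zero {b : E} (hb : h34g_IsLN σ ℓ b) : b ≠ 0 := by
  intro h0
  obtain ⟨y, -, hy⟩ := hb 1 one_pos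
  rw [h0, zero_div, zero_sub, norm_neg, norm_one] at hy
  exact lt_irrefl 1 hy

omit [IsUltrametricDist E] in
theorem h34g_coe_ne_zero {x : E} (hx : x ≠ 0) : (x : Completion E) ≠ 0 := by
  intro h
  apply hx
  have : ((x : E) : Completion E) = ((0 : E) : Completion E) := by rw [h, Completion.coe_zero]
  exact Completion.coe_injective E this

/-- A norm from the completion is approximable by norms. -/
theorem h34g_isLN_of_norm (h : H34Loc E σ ℓ) {b : E} {β : Completion E} (hβ0 : β ≠ 0)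
    (hβ : h33n_N (h34g_hat σ h.hσ) ℓ β = (b : Completion E)) : h34g_IsLN σ ℓ b := by
  have := h34g_ultra (E := E)
  intro ε hε
  have hβpos : 0 < ‖β‖ := norm_pos_iff.mpr hβ0
  have hε' : 0 < min ε 1 * ‖β‖ := mul_pos (lt_min hε one_pos) hβpos
  obtain ⟨y, hy0, hy, hyβ⟩ := h34g_exists_norm_eq β hβ0 hε'
  refine ⟨y, hy0, ?_⟩
  have hyc0 : (y : Completion E) ≠ 0 := h34g_coe_ne_zero hy0
  have hu : ‖β / (y : Completion E) - 1‖ < min ε 1 := by
    have h1 : β / (y : Completion E) - 1 = (β - (y : Completion E)) / (y : Completion E) := by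
      field_simp
    rw [h1, norm_div, Completion.norm_coe, hyβ, div_lt_iff₀ hβpos]
    exact hy
  have h2 := h34g_norm_N_sub_one σ h.hσ ℓ (min_le_right ε 1) hu.le
  rw [h34g_N_div, hβ, h34g_N_coe] at h2
  have h3 : (b : Completion E) / ((h33n_N σ ℓ y : E) : Completion E) - 1
      = ((b / h33n_N σ ℓ y - 1 : E) : Completion E) := by
    rw [Completion.coe_sub, Completion.coe_one]
    congr 1
    have h4 : ((h33n_N σ ℓ y : E) : Completion E) ≠ 0 :=
      h34g_coe_ne_zero (h34g_N_ne_zero σ ℓ hy0)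
    rw [div_eq_iff h4, ← Completion.coe_mul, div_mul_cancel₀ _ (h34g_N_ne_zero σ ℓ hy0)]
  rw [h3, Completion.norm_coe] at h2
  -- strictness
  have h5 : ‖β / (y : Completion E) - 1‖ < ε := lt_of_lt_of_le hu (min_le_left _ _)
  by_cases hle : ‖b / h33n_N σ ℓ y - 1‖ < ε
  · exact hle
  · exfalso
    have h6 := h34g_norm_N_sub_one σ h.hσ ℓ
      (le_trans hu.le (min_le_right ε 1)) (le_refl ‖β / (y : Completion E) - 1‖)
    rw [h34g_N_div, hβ, h34g_N_coe, h3, Completion.norm_coe] at h6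
    exact hle (lt_of_le_of_lt h6 h5)

/-- An element approximable by norms is a norm from the completion. -/
theorem h34g_norm_of_isLN (h : H34Loc E σ ℓ) {b : E} (hfix : σ b = b)
    (hb : h34g_IsLN σ ℓ b) :
    ∃ β : Completion E, β ≠ 0 ∧ h33n_N (h34g_hat σ h.hσ) ℓ β = (b : Completion E) := by
  obtain ⟨c, hc, hball⟩ := h34g_ball_norm h
  obtain ⟨y, hy0, hy⟩ := hb c hc
  have hNy0 : h33n_N σ ℓ y ≠ 0 := h34g_N_ne_zero σ ℓ hy0
  have hfix' : h34g_hat σ h.hσ ((b / h33n_N σ ℓ y : E) : Completion E)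
      = ((b / h33n_N σ ℓ y : E) : Completion E) := by
    rw [h34g_hat_coe, map_div₀, hfix, h34g_N_fixed σ ℓ h.hσℓ]
  have hnear : ‖((b / h33n_N σ ℓ y : E) : Completion E) - 1‖ ≤ c := by
    rw [← Completion.coe_one, ← Completion.coe_sub, Completion.norm_coe]
    exact hy.le
  obtain ⟨y', hy'0, hy'⟩ := hball _ hfix' hnear
  refine ⟨y' * (y : Completion E), mul_ne_zero hy'0 (h34g_coe_ne_zero hy0), ?_⟩
  rw [h34g_N_mul, hy', h34g_N_coe, ← Completion.coe_mul, div_mul_cancel₀ _ hNy0]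

theorem h34g_isLN_iff (h : H34Loc E σ ℓ) {b : E} (hfix : σ b = b) :
    h34g_IsLN σ ℓ b ↔
      ∃ β : Completion E, β ≠ 0 ∧ h33n_N (h34g_hat σ h.hσ) ℓ β = (b : Completion E) :=
  ⟨h34g_norm_of_isLN h hfix, fun ⟨_, hβ0, hβ⟩ => h34g_isLN_of_norm h hβ0 hβ⟩

/-- The fixed field of `σ` in `E` is dense in the fixed field of `σ̂`: averaging. -/
theorem h34g_exists_fixed_near (h : H34Loc E σ ℓ) {b : Completion E}
    (hfix : h34g_hat σ h.hσ b = b) (hb0 : b ≠ 0) {ε : ℝ} (hε : 0 < ε) :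
    ∃ t : E, σ t = t ∧ t ≠ 0 ∧ ‖b / (t : Completion E) - 1‖ < ε := by
  have := h34g_ultra (E := E)
  have hbpos : 0 < ‖b‖ := norm_pos_iff.mpr hb0
  have hℓc : ((ℓ : E) : Completion E) ≠ 0 := h34g_coe_ne_zero h.hℓ0
  have hℓE : 0 < ‖(ℓ : E)‖ := norm_pos_iff.mpr h.hℓ0
  -- the precision
  have hε' : 0 < min ε 1 * ‖b‖ * ‖(ℓ : E)‖ := mul_pos (mul_pos (lt_min hε one_pos) hbpos) hℓE
  obtain ⟨y, hy⟩ := h34g_exists_near b hε'
  -- the average
  have hT : h33n_T (h34g_hat σ h.hσ) ℓ b = (ℓ : Completion E) * b := by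
    unfold h33n_T
    rw [Finset.sum_congr rfl fun i _ => h34c_pow_fixed (h34g_hat σ h.hσ) hfix i,
      Finset.sum_const, Finset.card_range, nsmul_eq_mul]
  have hTy : ‖h33n_T (h34g_hat σ h.hσ) ℓ (b - (y : Completion E))‖
      ≤ ‖b - (y : Completion E)‖ := by
    unfold h33n_T
    refine IsUltrametricDist.norm_sum_le_of_forall_le_of_nonneg (norm_nonneg _) fun i _ => ?_
    rw [h34g_hat_pow_norm]
  set t : E := (ℓ : E)⁻¹ * h33n_T σ ℓ y with ht
  have htfix : σ t = t := by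
    rw [ht, map_mul, map_inv₀, map_natCast, h34c_T_fixed σ ℓ h.hσℓ]
  have hcast : ((ℓ : E) : Completion E) = (ℓ : Completion E) :=
    map_natCast (Completion.coeRingHom : E →+* Completion E) ℓ
  have hℓc' : (ℓ : Completion E) ≠ 0 := by rwa [← hcast]
  have htc : (t : Completion E) = (ℓ : Completion E)⁻¹ * h33n_T (h34g_hat σ h.hσ) ℓ y := by
    rw [ht, Completion.coe_mul, h34g_T_coe]
    congr 1
    have h1 : (((ℓ : E)⁻¹ : E) : Completion E) * ((ℓ : E) : Completion E) = 1 := by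
      rw [← Completion.coe_mul, inv_mul_cancel₀ h.hℓ0, Completion.coe_one]
    rw [hcast] at h1
    exact eq_inv_of_mul_eq_one_left h1
  have hdiff : b - (t : Completion E)
      = (ℓ : Completion E)⁻¹ * h33n_T (h34g_hat σ h.hσ) ℓ (b - (y : Completion E)) := by
    rw [htc, h34c_T_sub, hT]
    field_simp
  have hnormℓ : ‖(ℓ : Completion E)‖ = ‖(ℓ : E)‖ := by
    rw [← hcast, Completion.norm_coe]
  have hbt : ‖b - (t : Completion E)‖ < min ε 1 * ‖b‖ := by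
    rw [hdiff, norm_mul, norm_inv, hnormℓ, inv_mul_lt_iff₀ hℓE, mul_comm ‖(ℓ : E)‖]
    exact lt_of_le_of_lt hTy hy
  have hbt1 : ‖b - (t : Completion E)‖ < ‖b‖ := by
    refine lt_of_lt_of_le hbt ?_
    calc min ε 1 * ‖b‖ ≤ 1 * ‖b‖ := mul_le_mul_of_nonneg_right (min_le_right _ _) hbpos.le
      _ = ‖b‖ := one_mul _
  have htn : ‖(t : Completion E)‖ = ‖b‖ := by
    have h3 : ‖b + -(t : Completion E)‖ < max ‖b‖ ‖-(t : Completion E)‖ := by
      rw [← sub_eq_add_neg]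
      exact lt_of_lt_of_le hbt1 (le_max_left _ _)
    have := IsUltrametricDist.norm_eq_of_add_norm_lt_max h3
    rw [norm_neg] at this
    exact this.symm
  have htc0 : (t : Completion E) ≠ 0 := by
    rw [← norm_pos_iff, htn]
    exact hbpos
  have ht0 : t ≠ 0 := by
    intro h0
    apply htc0
    rw [h0, Completion.coe_zero]
  refine ⟨t, htfix, ht0, ?_⟩
  have h4 : b / (t : Completion E) - 1 = (b - (t : Completion E)) / (t : Completion E) := by
    field_simp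
  rw [h4, norm_div, htn, div_lt_iff₀ hbpos]
  exact lt_of_lt_of_le hbt (mul_le_mul_of_nonneg_right (min_le_left _ _) hbpos.le)

/-- Some `σ`-fixed element of `E` is not approximable by norms. -/
theorem h34g_exists_not_isLN (h : H34Loc E σ ℓ) :
    ∃ b : E, σ b = b ∧ b ≠ 0 ∧ ¬ h34g_IsLN σ ℓ b := by
  obtain ⟨⟨b, hbfix, hb0, hbn⟩, -⟩ := h34g_normIndex_hat h
  obtain ⟨c, hc, hball⟩ := h34g_ball_norm h
  obtain ⟨t, htfix, ht0, ht⟩ := h34g_exists_fixed_near h hbfix hb0 hc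
  refine ⟨t, htfix, ht0, fun hLN => ?_⟩
  obtain ⟨β, hβ0, hβ⟩ := h34g_norm_of_isLN h htfix hLN
  have hfix' : h34g_hat σ h.hσ (b / (t : Completion E)) = b / (t : Completion E) := by
    rw [map_div₀, hbfix, h34g_hat_coe, htfix]
  obtain ⟨y', hy'0, hy'⟩ := hball _ hfix' ht.le
  apply hbn
  refine ⟨y' * β, mul_ne_zero hy'0 hβ0, ?_⟩
  rw [h34g_N_mul, hy', hβ, div_mul_cancel₀ _ (h34g_coe_ne_zero ht0)]

/-- If `b` is not approximable by norms, every `σ`-fixed `b' ≠ 0` is, up to a power of `b`. -/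
theorem h34g_isLN_mul_pow (h : H34Loc E σ ℓ) {b : E} (hfix : σ b = b) (hb0 : b ≠ 0)
    (hbn : ¬ h34g_IsLN σ ℓ b) {b' : E} (hfix' : σ b' = b') (hb'0 : b' ≠ 0) :
    ∃ k, k < ℓ ∧ h34g_IsLN σ ℓ (b' * b ^ k) := by
  obtain ⟨-, hidx⟩ := h34g_normIndex_hat h
  have h1 : h34g_hat σ h.hσ (b : Completion E) = (b : Completion E) := by
    rw [h34g_hat_coe, hfix]
  have h2 : h34g_hat σ h.hσ (b' : Completion E) = (b' : Completion E) := by
    rw [h34g_hat_coe, hfix']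
  have h3 : ¬ ∃ β : Completion E, β ≠ 0 ∧ h33n_N (h34g_hat σ h.hσ) ℓ β = (b : Completion E) :=
    fun ⟨β, hβ0, hβ⟩ => hbn (h34g_isLN_of_norm h hβ0 hβ)
  obtain ⟨k, hk, β, hβ0, hβ⟩ := hidx (b : Completion E) h1 (h34g_coe_ne_zero hb0) h3
    (b' : Completion E) h2 (h34g_coe_ne_zero hb'0)
  refine ⟨k, hk, h34g_isLN_of_norm h hβ0 ?_⟩
  rw [hβ, Completion.coe_mul]
  congr 1
  exact (map_pow (Completion.coeRingHom : E →+* Completion E) b k).symm

omit [IsUltrametricDist E] in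
theorem h34g_isLN_one : h34g_IsLN σ ℓ (1 : E) := by
  intro ε hε
  refine ⟨1, one_ne_zero, ?_⟩
  rw [h34g_N_one, div_one, sub_self, norm_zero]
  exact hε

omit [IsUltrametricDist E] in
theorem h34g_isLN_pow_ell {b : E} (hfix : σ b = b) (hb0 : b ≠ 0) :
    h34g_IsLN σ ℓ (b ^ ℓ) := by
  intro ε hε
  refine ⟨b, hb0, ?_⟩
  rw [h34g_N_of_fixed σ ℓ hfix, div_self (pow_ne_zero _ hb0), sub_self, norm_zero]
  exact hε

end Gen

end Fermat.Agent.PT.Glob
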