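import Mathlib
import Fermat.Agent.PT.Glob.LNI.H34LNGen

/-!
# PT-GLOB, local inputs (helper34): a number field with a `w`-adic absolute value

`h34g_abs w` is the `w`-adic absolute value of base `2` on `K`; `WithAbs (h34g_abs w)` is an
ultrametric normed field with discrete value group and finite residue system.
-/

set_option autoImplicit false

open NumberField IsDedekindDomain

open scoped NNReal WithZero

namespace Fermat.Agent.PT.Glob

section Abs

variable {K : Type} [Field K] [NumberField K] (w : HeightOneSpectrum (𝓞 K))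

/-- The `w`-adic absolute value of base `2`. -/
noncomputable def h34g_abs : AbsoluteValue K ℝ := w.adicAbv (b := 2) one_lt_two

theorem h34g_abs_apply (x : K) :
    h34g_abs w x
      = ((WithZeroMulInt.toNNReal (e := 2) two_ne_zero (w.valuation K x) : ℝ≥0) : ℝ) := rfl

theorem h34g_abs_le_iff (x y : K) :
    h34g_abs w x ≤ h34g_abs w y ↔ w.valuation K x ≤ w.valuation K y := by
  rw [h34g_abs_apply, h34g_abs_apply, NNReal.coe_le_coe,
    (WithZeroMulInt.toNNReal_strictMono (e := 2) one_lt_two).le_iff_le]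

theorem h34g_abs_lt_iff (x y : K) :
    h34g_abs w x < h34g_abs w y ↔ w.valuation K x < w.valuation K y := by
  rw [h34g_abs_apply, h34g_abs_apply, NNReal.coe_lt_coe,
    (WithZeroMulInt.toNNReal_strictMono (e := 2) one_lt_two).lt_iff_lt]

theorem h34g_abs_exp {x : K} {n : ℤ} (h : w.valuation K x = WithZero.exp n) :
    h34g_abs w x = (2 : ℝ) ^ n := by
  rw [h34g_abs_apply, h, WithZeroMulInt.toNNReal_neg_apply _ WithZero.exp_ne_zero,
    NNReal.coe_zpow]
  congr 1

theorem h34g_abs_le_exp_iff (x : K) (n : ℤ) :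
    h34g_abs w x ≤ (2 : ℝ) ^ n ↔ w.valuation K x ≤ WithZero.exp n := by
  obtain ⟨π, hπ⟩ := w.valuation_exists_uniformizer K
  have hπ0 : π ≠ 0 := by
    intro h
    rw [h, map_zero] at hπ
    exact WithZero.exp_ne_zero hπ.symm
  have h1 : w.valuation K (π ^ (-n)) = WithZero.exp n := by
    rw [map_zpow₀, hπ, ← WithZero.exp_zsmul]
    simp
  rw [← h34g_abs_exp w h1, h34g_abs_le_iff, h1]

theorem h34g_abs_lt_exp_iff (x : K) (n : ℤ) :
    h34g_abs w x < (2 : ℝ) ^ n ↔ w.valuation K x < WithZero.exp n := by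
  obtain ⟨π, hπ⟩ := w.valuation_exists_uniformizer K
  have h1 : w.valuation K (π ^ (-n)) = WithZero.exp n := by
    rw [map_zpow₀, hπ, ← WithZero.exp_zsmul]
    simp
  rw [← h34g_abs_exp w h1, h34g_abs_lt_iff, h1]

theorem h34g_abs_le_one_iff (x : K) : h34g_abs w x ≤ 1 ↔ w.valuation K x ≤ 1 := by
  have := h34g_abs_le_exp_iff w x 0
  rwa [zpow_zero, WithZero.exp_zero] at this

theorem h34g_abs_lt_one_iff (x : K) : h34g_abs w x < 1 ↔ w.valuation K x < 1 := by
  have := h34g_abs_lt_exp_iff w x 0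
  rwa [zpow_zero, WithZero.exp_zero] at this

theorem h34g_E_ultra : IsUltrametricDist (WithAbs (h34g_abs w)) := by
  refine IsUltrametricDist.isUltrametricDist_of_forall_norm_add_le_max_norm fun x y => ?_
  rw [WithAbs.norm_eq_apply_ofAbs, WithAbs.norm_eq_apply_ofAbs, WithAbs.norm_eq_apply_ofAbs,
    WithAbs.ofAbs_add]
  rcases le_total (w.valuation K x.ofAbs) (w.valuation K y.ofAbs) with hxy | hxy
  · refine le_trans ?_ (le_max_right _ _)
    rw [h34g_abs_le_iff]
    exact (Valuation.map_add _ _ _).trans (max_le hxy le_rfl)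
  · refine le_trans ?_ (le_max_left _ _)
    rw [h34g_abs_le_iff]
    exact (Valuation.map_add _ _ _).trans (max_le le_rfl hxy)

/-- Discreteness of the value group. -/
theorem h34g_E_unif :
    ∃ ϖ : WithAbs (h34g_abs w), ϖ ≠ 0 ∧ ‖ϖ‖ < 1 ∧
      ∀ x : WithAbs (h34g_abs w), x ≠ 0 → ∃ n : ℤ, ‖x‖ = ‖ϖ‖ ^ n := by
  obtain ⟨π, hπ⟩ := w.valuation_exists_uniformizer K
  have hπ0 : π ≠ 0 := by
    intro h
    rw [h, map_zero] at hπ
    exact WithZero.exp_ne_zero hπ.symm
  have hnπ : ‖WithAbs.toAbs (h34g_abs w) π‖ = (2 : ℝ) ^ (-1 : ℤ) := by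
    rw [WithAbs.norm_toAbs_eq]
    exact h34g_abs_exp w hπ
  refine ⟨WithAbs.toAbs (h34g_abs w) π, ?_, ?_, ?_⟩
  · rw [Ne, WithAbs.toAbs_eq_zero]
    exact hπ0
  · rw [hnπ]
    norm_num
  · intro x hx
    have hx0 : x.ofAbs ≠ 0 := by
      rw [Ne, WithAbs.ofAbs_eq_zero]
      exact hx
    have hv0 : w.valuation K x.ofAbs ≠ 0 := by
      rw [Ne, map_eq_zero]
      exact hx0
    refine ⟨-WithZero.log (w.valuation K x.ofAbs), ?_⟩
    rw [hnπ, WithAbs.norm_eq_apply_ofAbs,
      h34g_abs_exp w (WithZero.exp_log hv0).symm, ← zpow_mul]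
    simp

/-- A finite system of representatives of the residue field. -/
theorem h34g_E_res :
    ∃ R : Finset (WithAbs (h34g_abs w)), ∀ x : WithAbs (h34g_abs w), ‖x‖ ≤ 1 →
      ∃ r ∈ R, ‖x - r‖ < 1 := by
  classical
  have hfin : Finite (𝓞 K ⧸ w.asIdeal) := Ideal.finiteQuotientOfFreeOfNeBot w.asIdeal w.ne_bot
  have : Fintype (𝓞 K ⧸ w.asIdeal) := Fintype.ofFinite _
  refine ⟨Finset.univ.image (fun c : 𝓞 K ⧸ w.asIdeal =>
    WithAbs.toAbs (h34g_abs w) (algebraMap (𝓞 K) K (Quotient.out c))), fun x hx => ?_⟩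
  rw [WithAbs.norm_eq_apply_ofAbs, h34g_abs_le_one_iff] at hx
  obtain ⟨a, ha⟩ := w.exists_valuation_sub_lt_of_integer hx 1
  rw [Units.val_one] at ha
  refine ⟨_, Finset.mem_image.mpr ⟨Ideal.Quotient.mk w.asIdeal a, Finset.mem_univ _, rfl⟩, ?_⟩
  rw [WithAbs.norm_eq_apply_ofAbs, h34g_abs_lt_one_iff]
  set r : 𝓞 K := Quotient.out (Ideal.Quotient.mk w.asIdeal a) with hr
  have hra : a - r ∈ w.asIdeal := by
    rw [← Ideal.Quotient.eq]
    exact (Quotient.out_eq _).symm
  have h1 : w.valuation K (algebraMap (𝓞 K) K (a - r)) < 1 :=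
    (w.valuation_lt_one_iff_mem (K := K) (a - r)).mpr hra
  have h2 : (x - WithAbs.toAbs (h34g_abs w) (algebraMap (𝓞 K) K r)).ofAbs
      = -(algebraMap (𝓞 K) K a - x.ofAbs) + algebraMap (𝓞 K) K (a - r) := by
    rw [map_sub]
    change x.ofAbs - algebraMap (𝓞 K) K r = _
    ring
  rw [h2]
  refine lt_of_le_of_lt (Valuation.map_add _ _ _) (max_lt ?_ h1)
  rw [Valuation.map_neg]
  exact ha

end Abs

end Fermat.Agent.PT.Glob
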