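import Mathlib
import Fermat.Agent.PT.Glob.FI.Iface
import Fermat.Agent.PT.Glob.LNI.H34NFAbs
import Fermat.Agent.PT.Units.SUnitHerbrand

/-!
# PT-GLOB, local inputs (helper34): Galois extensions of prime degree, one prime above `v`

`K / L` Galois of prime degree `p`, `σ` a generator; if `w` is the only prime of `K` above `v`
then `σ` is an isometry of `(K, w)` and `(WithAbs (h34g_abs w), σ)` is a local datum `H34Loc`.
-/

set_option autoImplicit false
set_option linter.unusedSectionVars false

open NumberField IsDedekindDomain Finset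

open scoped NNReal WithZero

namespace Fermat.Agent.PT.Glob

open Fermat.Agent.PT.Units Fermat.Agent.PT.Loc

section Gal

variable {L K : Type} [Field L] [NumberField L] [Field K] [NumberField K] [Algebra L K]
  [IsGalois L K]

/-- A generator of the Galois group of a Galois extension of prime degree. -/
theorem h34g_gal_gen {p : ℕ} (hp : p.Prime) (hdeg : Module.finrank L K = p) :
    ∃ σ : Gal(K/L), σ ≠ 1 ∧ σ ^ p = 1 ∧ (∀ i, 0 < i → i < p → σ ^ i ≠ 1) ∧
      (∀ τ : Gal(K/L), ∃ i, i < p ∧ τ = σ ^ i) := by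
  classical
  have hcard : Nat.card Gal(K/L) = p := by
    rw [IsGalois.card_aut_eq_finrank, hdeg]
  have : Fact p.Prime := ⟨hp⟩
  have hfin : Finite Gal(K/L) := Nat.finite_of_card_ne_zero (by rw [hcard]; exact hp.ne_zero)
  have hnt : Nontrivial Gal(K/L) := by
    rw [← Finite.one_lt_card_iff_nontrivial, hcard]
    exact hp.one_lt
  obtain ⟨σ, hσ⟩ := exists_ne (1 : Gal(K/L))
  have hσp : σ ^ p = 1 := by
    rw [← hcard]
    exact pow_card_eq_one'
  have hord : orderOf σ = p := orderOf_eq_prime hσp hσ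
  refine ⟨σ, hσ, hσp, ?_, ?_⟩
  · intro i hi hip
    exact pow_ne_one_of_lt_orderOf hi.ne' (by rw [hord]; exact hip)
  · intro τ
    have htop : Subgroup.zpowers σ = ⊤ := zpowers_eq_top_of_prime_card hcard hσ
    have hτ : τ ∈ Subgroup.zpowers σ := by
      rw [htop]
      exact Subgroup.mem_top τ
    have hfo : IsOfFinOrder σ := isOfFinOrder_of_finite σ
    rw [hfo.mem_zpowers_iff_mem_range_orderOf, hord] at hτ
    obtain ⟨i, hi, rfl⟩ := Finset.mem_image.mp hτ
    exact ⟨i, Finset.mem_range.mp hi, rfl⟩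

theorem h34g_toRingEquiv_pow (σ : Gal(K/L)) (i : ℕ) (x : K) :
    ((σ.toRingEquiv : K ≃+* K) ^ i) x = (σ ^ i) x := by
  induction i with
  | zero => rfl
  | succ i ih =>
    rw [pow_succ', pow_succ']
    change σ (((σ.toRingEquiv : K ≃+* K) ^ i) x) = σ ((σ ^ i) x)
    rw [ih]

/-- The norm as a product over the powers of a generator. -/
theorem h34g_norm_eq {p : ℕ} (σ : Gal(K/L)) (hinj : ∀ i, 0 < i → i < p → σ ^ i ≠ 1)
    (hsurj : ∀ τ : Gal(K/L), ∃ i, i < p ∧ τ = σ ^ i) (y : K) :
    h33n_N (σ.toRingEquiv : K ≃+* K) p y = algebraMap L K (Algebra.norm L y) := by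
  classical
  rw [Algebra.norm_eq_prod_automorphisms]
  unfold h33n_N
  have himg : (Finset.univ : Finset Gal(K/L)) = (range p).image (fun i => σ ^ i) := by
    ext τ
    simp only [Finset.mem_univ, Finset.mem_image, Finset.mem_range, true_iff]
    obtain ⟨i, hi, rfl⟩ := hsurj τ
    exact ⟨i, hi, rfl⟩
  have hinjOn : Set.InjOn (fun i => σ ^ i) (range p : Finset ℕ) := by
    intro i hi j hj hij
    simp only [Finset.coe_range, Set.mem_Iio] at hi hj
    by_contra hne
    rcases lt_or_gt_of_ne hne with hlt | hlt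
    · have h1 : σ ^ (j - i) = 1 := by
        have h2 : σ ^ j = σ ^ (j - i) * σ ^ i := by
          rw [← pow_add, Nat.sub_add_cancel hlt.le]
        have h3 : σ ^ i = σ ^ (j - i) * σ ^ i := by
          rw [← h2]
          exact hij
        exact (mul_eq_right.mp h3.symm)
      exact hinj (j - i) (by omega) (by omega) h1
    · have h1 : σ ^ (i - j) = 1 := by
        have h2 : σ ^ i = σ ^ (i - j) * σ ^ j := by
          rw [← pow_add, Nat.sub_add_cancel hlt.le]
        have h3 : σ ^ j = σ ^ (i - j) * σ ^ j := by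
          rw [← h2]
          exact hij.symm
        exact (mul_eq_right.mp h3.symm)
      exact hinj (i - j) (by omega) (by omega) h1
  rw [himg, Finset.prod_image hinjOn]
  exact Finset.prod_congr rfl fun i _ => h34g_toRingEquiv_pow σ i y

/-- Elements fixed by a generator come from `L`. -/
theorem h34g_fixed {p : ℕ} (σ : Gal(K/L)) (hsurj : ∀ τ : Gal(K/L), ∃ i, i < p ∧ τ = σ ^ i)
    {y : K} (hy : σ y = y) : ∃ b : L, algebraMap L K b = y := by
  have h1 : y ∈ (⊥ : IntermediateField L K) := by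
    rw [IsGalois.mem_bot_iff_fixed]
    intro τ
    obtain ⟨i, -, rfl⟩ := hsurj τ
    induction i with
    | zero => rfl
    | succ i ih =>
      rw [pow_succ']
      change σ ((σ ^ i) y) = y
      rw [ih, hy]
  obtain ⟨b, hb⟩ := IntermediateField.mem_bot.mp h1
  exact ⟨b, hb⟩

/-- The unique prime above `v`. -/
theorem h34g_exists_unique_above (v : HeightOneSpectrum (𝓞 L))
    (hone : (v.asIdeal.primesOver (𝓞 K)).ncard = 1) :
    ∃ w : HeightOneSpectrum (𝓞 K), w.under (𝓞 L) = v ∧
      ∀ w' : HeightOneSpectrum (𝓞 K), w'.under (𝓞 L) = v → w' = w := by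
  obtain ⟨w, hw⟩ := SU_exists_above (K := L) (L := K) v
  refine ⟨w, hw, fun w' hw' => ?_⟩
  obtain ⟨P, hP⟩ := Set.ncard_eq_one.1 hone
  have hmem : ∀ w'' : HeightOneSpectrum (𝓞 K), w''.under (𝓞 L) = v → w''.asIdeal = P := by
    intro w'' hw''
    have h1 : w''.asIdeal ∈ v.asIdeal.primesOver (𝓞 K) := by
      refine ⟨w''.isPrime, ⟨?_⟩⟩
      rw [← hw'']
      rfl
    rw [hP] at h1
    exact h1
  apply HeightOneSpectrum.ext
  rw [hmem w' hw', hmem w hw]

/-- With only one prime above `v`, the Galois group preserves the valuation. -/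
theorem h34g_valuation_gal (v : HeightOneSpectrum (𝓞 L)) (w : HeightOneSpectrum (𝓞 K))
    (hw : w.under (𝓞 L) = v)
    (huniq : ∀ w' : HeightOneSpectrum (𝓞 K), w'.under (𝓞 L) = v → w' = w) (σ : Gal(K/L))
    (x : K) : w.valuation K (σ x) = w.valuation K x := by
  rw [SU_valuation_gal, huniq (SU_pull σ w) (by rw [SU_pull_under, hw])]

end Gal

end Fermat.Agent.PT.Glob
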