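import Mathlib
import Fermat.Agent.PT.Glob.LNI.H34NFGal

/-!
# PT-GLOB, block GLOB-FI, leaf FI-L1 (helper34, second seat): `FILocalIndex`

`h34g_fiLocalIndex : FILocalIndex` — for `K / L` Galois of prime degree `p` and a place `v` of `L`
with only one prime `w` of `K` above it, the local norms at `v` have index `p` in `Lˣ`.

Route: the completion `Ê` of `E = (K, |·|_w)` with the continuous extension of a generator `σ`
is a datum `H33LF`; the abstract norm index theorem `H33NormIndex` + cohomological triviality of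
a small unit lattice (`H33CohTriv`) give the index in the approximation form `h34g_IsLN`
(`LNI/H34LNGen.lean`), which is `IsLocalNormAt` of `Glob/Core.lean`.
-/

set_option autoImplicit false
set_option linter.unusedSectionVars false

open NumberField IsDedekindDomain Finset

open scoped NNReal WithZero

namespace Fermat.Agent.PT.Glob

open Fermat.Agent.PT.Units Fermat.Agent.PT.Loc

section Final

variable {L K : Type} [Field L] [NumberField L] [Field K] [NumberField K] [Algebra L K]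
  [IsGalois L K]

/-- The automorphism `σ` on `E = WithAbs (h34g_abs w)`. -/
noncomputable def h34g_sigE (w : HeightOneSpectrum (𝓞 K)) (σ : Gal(K/L)) :
    WithAbs (h34g_abs w) ≃+* WithAbs (h34g_abs w) :=
  WithAbs.congr (h34g_abs w) (h34g_abs w) σ.toRingEquiv

theorem h34g_sigE_apply (w : HeightOneSpectrum (𝓞 K)) (σ : Gal(K/L))
    (x : WithAbs (h34g_abs w)) :
    h34g_sigE w σ x = WithAbs.toAbs (h34g_abs w) (σ x.ofAbs) := rfl

theorem h34g_sigE_pow_apply (w : HeightOneSpectrum (𝓞 K)) (σ : Gal(K/L)) (i : ℕ)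
    (x : WithAbs (h34g_abs w)) :
    ((h34g_sigE w σ) ^ i) x = WithAbs.toAbs (h34g_abs w) ((σ ^ i) x.ofAbs) := by
  induction i with
  | zero => rfl
  | succ i ih =>
    rw [pow_succ', pow_succ']
    change h34g_sigE w σ (((h34g_sigE w σ) ^ i) x) = _
    rw [ih, h34g_sigE_apply]
    rfl

theorem h34g_N_sigE (w : HeightOneSpectrum (𝓞 K)) (σ : Gal(K/L)) (p : ℕ)
    (y : WithAbs (h34g_abs w)) :
    h33n_N (h34g_sigE w σ) p y
      = WithAbs.toAbs (h34g_abs w) (h33n_N (σ.toRingEquiv : K ≃+* K) p y.ofAbs) := by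
  unfold h33n_N
  have h1 : WithAbs.toAbs (h34g_abs w) (∏ i ∈ range p, ((σ.toRingEquiv : K ≃+* K) ^ i) y.ofAbs)
      = ∏ i ∈ range p, WithAbs.toAbs (h34g_abs w) (((σ.toRingEquiv : K ≃+* K) ^ i) y.ofAbs) :=
    map_prod (WithAbs.equiv (h34g_abs w)).symm _ _
  rw [h1]
  refine Finset.prod_congr rfl fun i _ => ?_
  rw [h34g_sigE_pow_apply, h34g_toRingEquiv_pow]

/-- The local datum of a place with only one prime above. -/
theorem h34g_loc {p : ℕ} (hp : p.Prime) (v : HeightOneSpectrum (𝓞 L))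
    (w : HeightOneSpectrum (𝓞 K)) (hw : w.under (𝓞 L) = v)
    (huniq : ∀ w' : HeightOneSpectrum (𝓞 K), w'.under (𝓞 L) = v → w' = w) (σ : Gal(K/L))
    (hσp : σ ^ p = 1) (hord : ∀ i, 0 < i → i < p → σ ^ i ≠ 1) :
    H34Loc (WithAbs (h34g_abs w)) (h34g_sigE w σ) p where
  hσ := fun x => by
    rw [WithAbs.norm_eq_apply_ofAbs, WithAbs.norm_eq_apply_ofAbs, h34g_sigE_apply,
      WithAbs.ofAbs_toAbs, h34g_abs_apply, h34g_abs_apply,
      h34g_valuation_gal v w hw huniq σ]
  hℓ := hp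
  hσℓ := by
    apply RingEquiv.ext
    intro x
    rw [h34g_sigE_pow_apply, hσp]
    rfl
  hord := fun i hi hip h1 => by
    apply hord i hi hip
    apply AlgEquiv.ext
    intro x
    have h2 := h34g_sigE_pow_apply w σ i (WithAbs.toAbs (h34g_abs w) x)
    rw [h1] at h2
    have h3 := congrArg WithAbs.ofAbs h2
    exact h3.symm
  hℓ0 := by
    have h1 : ((p : ℕ) : WithAbs (h34g_abs w)) = WithAbs.toAbs (h34g_abs w) ((p : ℕ) : K) :=
      (map_natCast (WithAbs.equiv (h34g_abs w)).symm p).symm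
    rw [h1, Ne, WithAbs.toAbs_eq_zero]
    exact Nat.cast_ne_zero.mpr hp.ne_zero
  hunif := h34g_E_unif w
  hres := h34g_E_res w

/-- The valuation of elements of `L` at a prime `w` of `K` above `v`. -/
theorem h34g_val_up (v : HeightOneSpectrum (𝓞 L)) (w : HeightOneSpectrum (𝓞 K))
    (hw : w.under (𝓞 L) = v) :
    ∃ e : ℕ, e ≠ 0 ∧ ∀ z : L, w.valuation K (algebraMap L K z) = v.valuation L z ^ e := by
  subst hw
  have : w.asIdeal.LiesOver (w.under (𝓞 L)).asIdeal := ⟨rfl⟩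
  refine ⟨(w.under (𝓞 L)).asIdeal.ramificationIdx' w.asIdeal, ?_, fun z => ?_⟩
  · exact Ideal.IsDedekindDomain.ramificationIdx'_ne_zero_of_liesOver w.asIdeal
      (w.under (𝓞 L)).ne_bot
  · exact (HeightOneSpectrum.valuation_liesOver K (w.under (𝓞 L)) w z).symm

/-- `L → E`. -/
noncomputable def h34g_phi (w : HeightOneSpectrum (𝓞 K)) : L →+* WithAbs (h34g_abs w) :=
  ((WithAbs.equiv (h34g_abs w)).symm : K ≃+* WithAbs (h34g_abs w)).toRingHom.comp
    (algebraMap L K)

theorem h34g_phi_apply (w : HeightOneSpectrum (𝓞 K)) (z : L) :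
    h34g_phi w z = WithAbs.toAbs (h34g_abs w) (algebraMap L K z) := rfl

theorem h34g_norm_phi (w : HeightOneSpectrum (𝓞 K)) (z : L) :
    ‖h34g_phi w z‖ = h34g_abs w (algebraMap L K z) := rfl

theorem h34g_quot_eq {p : ℕ} (w : HeightOneSpectrum (𝓞 K)) (σ : Gal(K/L))
    (hord : ∀ i, 0 < i → i < p → σ ^ i ≠ 1) (hsurj : ∀ τ : Gal(K/L), ∃ i, i < p ∧ τ = σ ^ i)
    (b : L) (y : K) :
    h34g_phi w b / h33n_N (h34g_sigE w σ) p (WithAbs.toAbs (h34g_abs w) y) - 1
      = h34g_phi w (b / Algebra.norm L y - 1) := by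
  rw [h34g_N_sigE, WithAbs.ofAbs_toAbs, h34g_norm_eq σ hord hsurj, ← h34g_phi_apply,
    map_sub, map_div₀, map_one]

/-- `IsLocalNormAt` of `Core.lean` is `h34g_IsLN`. -/
theorem h34g_isLocalNormAt_iff {p : ℕ} (v : HeightOneSpectrum (𝓞 L))
    (w : HeightOneSpectrum (𝓞 K)) (hw : w.under (𝓞 L) = v) (σ : Gal(K/L))
    (hord : ∀ i, 0 < i → i < p → σ ^ i ≠ 1) (hsurj : ∀ τ : Gal(K/L), ∃ i, i < p ∧ τ = σ ^ i)
    (b : Lˣ) :
    IsLocalNormAt L K v b ↔ h34g_IsLN (h34g_sigE w σ) p (h34g_phi w (b : L)) := by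
  obtain ⟨e, he0, hval⟩ := h34g_val_up v w hw
  constructor
  · intro hb ε hε
    obtain ⟨n, hn⟩ := exists_pow_lt_of_lt_one hε (by norm_num : (1 / 2 : ℝ) < 1)
    obtain ⟨y, hy⟩ := hb n
    unfold NormApprox at hy
    refine ⟨WithAbs.toAbs (h34g_abs w) (y : K), ?_, ?_⟩
    · rw [Ne, WithAbs.toAbs_eq_zero]
      exact y.ne_zero
    · rw [h34g_quot_eq w σ hord hsurj, h34g_norm_phi]
      have h1 : w.valuation K (algebraMap L K ((b : L) / Algebra.norm L (y : K) - 1))
          ≤ WithZero.exp (-((n : ℤ) + 1)) := by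
        rw [hval]
        have hle1 : v.valuation L ((b : L) / Algebra.norm L (y : K) - 1) ≤ 1 :=
          hy.trans (exp_neg_succ_lt_one n).le
        exact (pow_le_of_le_one zero_le hle1 he0).trans hy
      rw [← h34g_abs_le_exp_iff] at h1
      refine lt_of_le_of_lt h1 (lt_of_le_of_lt ?_ hn)
      rw [zpow_neg, ← inv_zpow, one_div]
      have h2 : ((2 : ℝ)⁻¹) ^ ((n : ℤ) + 1) = ((2 : ℝ)⁻¹) ^ (n + 1) := by
        norm_cast
      rw [h2]
      exact pow_le_pow_of_le_one (by norm_num) (by norm_num) (Nat.le_succ n)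
  · intro hLN n
    have hε : 0 < (2 : ℝ) ^ (-((e : ℤ) * ((n : ℤ) + 1))) := zpow_pos (by norm_num) _
    obtain ⟨y, hy0, hy⟩ := hLN _ hε
    have hy0' : y.ofAbs ≠ 0 := by
      rw [Ne, WithAbs.ofAbs_eq_zero]
      exact hy0
    refine ⟨Units.mk0 y.ofAbs hy0', ?_⟩
    unfold NormApprox
    rw [Units.val_mk0]
    have h1 := h34g_quot_eq w σ hord hsurj (b : L) y.ofAbs
    rw [WithAbs.toAbs_ofAbs] at h1
    rw [h1, h34g_norm_phi, h34g_abs_lt_exp_iff, hval] at hy
    have h2 : (WithZero.exp (-((e : ℤ) * ((n : ℤ) + 1))) : ℤᵐ⁰)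
        = WithZero.exp (-((n : ℤ) + 1)) ^ e := by
      rw [← WithZero.exp_nsmul]
      congr 1
    rw [h2] at hy
    exact (lt_of_pow_lt_pow_left₀ e zero_le hy).le

/-- A subgroup with a prime-order cyclic quotient has prime index. -/
theorem h34g_index_eq_prime {G : Type*} [CommGroup G] (H : Subgroup G) {p : ℕ} (hp : p.Prime)
    (u : G) (hu : u ∉ H) (hup : u ^ p ∈ H) (hgen : ∀ g : G, ∃ k, k < p ∧ g * u ^ k ∈ H) :
    H.index = p := by
  have : Fact p.Prime := ⟨hp⟩
  have hq1 : (QuotientGroup.mk u : G ⧸ H) ≠ 1 := by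
    rw [Ne, QuotientGroup.eq_one_iff]
    exact hu
  have hqp : (QuotientGroup.mk u : G ⧸ H) ^ p = 1 := by
    rw [← QuotientGroup.mk_pow, QuotientGroup.eq_one_iff]
    exact hup
  have hord : orderOf (QuotientGroup.mk u : G ⧸ H) = p := orderOf_eq_prime hqp hq1
  have htop : Subgroup.zpowers (QuotientGroup.mk u : G ⧸ H) = ⊤ := by
    rw [eq_top_iff]
    intro x _
    obtain ⟨g, rfl⟩ := QuotientGroup.mk_surjective x
    obtain ⟨k, -, hk⟩ := hgen g
    have h1 : (QuotientGroup.mk g : G ⧸ H) * (QuotientGroup.mk u : G ⧸ H) ^ k = 1 := by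
      rw [← QuotientGroup.mk_pow, ← QuotientGroup.mk_mul, QuotientGroup.eq_one_iff]
      exact hk
    have h2 : (QuotientGroup.mk g : G ⧸ H) = ((QuotientGroup.mk u : G ⧸ H) ^ k)⁻¹ :=
      eq_inv_of_mul_eq_one_left h1
    rw [h2]
    exact Subgroup.inv_mem _ (Subgroup.pow_mem _ (Subgroup.mem_zpowers _) k)
  rw [Subgroup.index_eq_card, ← hord, ← Nat.card_zpowers, htop]
  exact (Nat.card_congr Subgroup.topEquiv.toEquiv).symm

/-- **FI-L1**: the local norm index at a place with only one prime above is `p`. -/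
theorem h34g_fiLocalIndex : FILocalIndex := by
  intro p hp _ L K _ _ _ _ _ _ hdeg v hone
  obtain ⟨w, hw, huniq⟩ := h34g_exists_unique_above v hone
  obtain ⟨σ, -, hσp, hord, hsurj⟩ := h34g_gal_gen (L := L) (K := K) hp hdeg
  have hloc := h34g_loc hp v w hw huniq σ hσp hord
  have hU := h34g_E_ultra w
  -- fixed elements of `E` come from `L`
  have hfixed : ∀ b : WithAbs (h34g_abs w), h34g_sigE w σ b = b → ∃ b₀ : L, h34g_phi w b₀ = b := by
    intro b hb
    have h1 : σ b.ofAbs = b.ofAbs := congrArg WithAbs.ofAbs hb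
    obtain ⟨b₀, hb₀⟩ := h34g_fixed σ hsurj h1
    refine ⟨b₀, ?_⟩
    rw [h34g_phi_apply, hb₀]
  have hphifix : ∀ z : L, h34g_sigE w σ (h34g_phi w z) = h34g_phi w z := by
    intro z
    rw [h34g_phi_apply, h34g_sigE_apply, WithAbs.ofAbs_toAbs, AlgEquiv.commutes]
  have hphi0 : ∀ z : L, z ≠ 0 → h34g_phi w z ≠ 0 := by
    intro z hz
    rw [h34g_phi_apply, Ne, WithAbs.toAbs_eq_zero]
    exact (map_ne_zero_iff _ (algebraMap L K).injective).mpr hz
  -- a non-norm
  obtain ⟨b, hbfix, hb0, hbn⟩ := h34g_exists_not_isLN hloc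
  obtain ⟨b₀, rfl⟩ := hfixed b hbfix
  have hb₀0 : b₀ ≠ 0 := by
    intro h
    apply hb0
    rw [h, map_zero]
  have hu : Units.mk0 b₀ hb₀0 ∉ localNormSubgroup L K v := by
    rw [mem_localNormSubgroup, h34g_isLocalNormAt_iff v w hw σ hord hsurj, Units.val_mk0]
    exact hbn
  refine h34g_index_eq_prime (localNormSubgroup L K v) hp (Units.mk0 b₀ hb₀0) hu ?_ ?_
  · -- `b₀ ^ p` is a global norm
    apply globalNorms_le_localNormSubgroup L K v
    rw [mem_globalNorms]
    refine ⟨Units.mk0 (algebraMap L K b₀) ((map_ne_zero_iff _ (algebraMap L K).injective).mpr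
      hb₀0), ?_⟩
    rw [Units.val_mk0, Algebra.norm_algebraMap, hdeg, Units.val_pow_eq_pow_val, Units.val_mk0]
  · intro g
    obtain ⟨k, hk, hLN⟩ := h34g_isLN_mul_pow hloc hbfix hb0 hbn (hphifix (g : L))
      (hphi0 (g : L) g.ne_zero)
    refine ⟨k, hk, ?_⟩
    rw [mem_localNormSubgroup, h34g_isLocalNormAt_iff v w hw σ hord hsurj, Units.val_mul,
      Units.val_pow_eq_pow_val, Units.val_mk0, map_mul, map_pow]
    exact hLN

end Final

end Fermat.Agent.PT.Glob
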